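import Fermat.Agent.S13.DP.Defs

/-!
# S13 / block DP: geometry: the addition hypothesis
(one worker per file; the STATEMENTS are frozen by helper2 — prove them, do not change them;
auxiliary lemmas go into the namespace `Fermat.Agent.S13.DP.GeoAddAux`.)
-/

set_option autoImplicit false

namespace Fermat.Agent.S13.DP

open Fermat.Agent.S05

variable {K : Type*} [Field K]

/-- If `k • P ≠ 0` for `1 ≤ k < n`, then for `2 ≤ k ≤ n - 2`: `X(kP) ≠ X(P)` and
`biq T X(kP) X(P) = (T - X((k+1)P)) (T - X((k-1)P)) (X(kP) - X(P))²`. -/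
theorem geo_add {α β : K} {G : Type*} [AddCommGroup G] (M : Model K α β G) {P : G} {n : ℕ}
    (h : ∀ k : ℕ, 1 ≤ k → k < n → k • P ≠ 0) :
    ∀ k : ℕ, 2 ≤ k → k + 2 ≤ n →
      xs M P k ≠ xs M P 1 ∧
      ∀ T : K, biq (-(α + β)) (α * β) T (xs M P k) (xs M P 1)
        = (T - xs M P (k + 1)) * (T - xs M P (k - 1)) * (xs M P k - xs M P 1) ^ 2 := by
  intro k hk2 hkn
  obtain ⟨k', rfl⟩ : ∃ k', k = k' + 1 := ⟨k - 1, by omega⟩
  have e1 : k' + 1 - 1 = k' := by omega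
  rw [e1]
  -- the nonzero points `P`, `kP`, `(k+1)P`, `(k-1)P`
  have h1 : (1 : ℕ) • P ≠ 0 := h 1 le_rfl (by omega)
  have hk : (k' + 1) • P ≠ 0 := h (k' + 1) (by omega) (by omega)
  have hkp : (k' + 1 + 1) • P ≠ 0 := h (k' + 1 + 1) (by omega) (by omega)
  have hkm : k' • P ≠ 0 := h k' (by omega) (by omega)
  obtain ⟨Y1, c1⟩ := exists_coord_nsmul M h1
  obtain ⟨Yk, ck⟩ := exists_coord_nsmul M hk
  -- `X(kP) ≠ X(P)`
  have hne : xs M P (k' + 1) ≠ xs M P 1 := by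
    intro heq
    rw [heq] at ck
    rcases M.eq_or_eq_neg_of_X_eq c1 ck with hE | hE
    · apply hkm
      rw [add_nsmul P k' 1] at hE
      exact add_eq_right.mp hE
    · apply hkp
      rw [add_nsmul P (k' + 1) 1, hE, neg_add_cancel]
  refine ⟨hne, fun T => ?_⟩
  -- chord rule for `kP ± P`
  obtain ⟨Xp, Yp, Xm, Ym, cp, cm, hsum, hprod⟩ := M.exists_coord_add_sub ck c1 hne
  have ep : (k' + 1) • P + 1 • P = (k' + 1 + 1) • P := (add_nsmul P (k' + 1) 1).symm
  have em : (k' + 1) • P - 1 • P = k' • P := by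
    rw [add_nsmul P k' 1, add_sub_cancel_right]
  rw [ep] at cp
  rw [em] at cm
  have xp : xs M P (k' + 1 + 1) = Xp := xs_of_coord M cp
  have xm : xs M P k' = Xm := xs_of_coord M cm
  rw [xp, xm, biq_expand]
  have hD : (xs M P (k' + 1) - xs M P 1) ^ 2 ≠ 0 := pow_ne_zero 2 (sub_ne_zero.mpr hne)
  have hs : (Xp + Xm) * (xs M P (k' + 1) - xs M P 1) ^ 2 =
      2 * ((xs M P (k' + 1) + xs M P 1) * (xs M P (k' + 1) * xs M P 1 + α * β)
        - 2 * (α + β) * xs M P (k' + 1) * xs M P 1) := by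
    rw [hsum, div_mul_cancel₀ _ hD]
  have hpr : (Xp * Xm) * (xs M P (k' + 1) - xs M P 1) ^ 2 =
      (xs M P (k' + 1) * xs M P 1 - α * β) ^ 2 := by
    rw [hprod, div_mul_cancel₀ _ hD]
  linear_combination T * hs - hpr

end Fermat.Agent.S13.DP
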