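import Fermat.Agent.S13.DP.Defs

/-!
# S13 / block DP: geometry: the duplication hypothesis
(one worker per file; the STATEMENTS are frozen by helper2 — prove them, do not change them;
auxiliary lemmas go into the namespace `Fermat.Agent.S13.DP.GeoDblAux`.)
-/

set_option autoImplicit false

namespace Fermat.Agent.S13.DP

open Fermat.Agent.S05

variable {K : Type*} [Field K]

/-- If `2 • P ≠ 0` then `Y ≠ 0` and `biq T X X = 4Y² (X(2P) - T)`. -/
theorem geo_dbl (h2 : (2 : K) ≠ 0) {α β : K} {G : Type*} [AddCommGroup G] (M : Model K α β G)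
    {P : G} {X Y : K} (hP : M.coord P = some (X, Y)) (h2P : 2 • P ≠ 0) :
    Y ≠ 0 ∧ ∀ T : K, biq (-(α + β)) (α * β) T X X = 4 * Y ^ 2 * (xs M P 2 - T) := by
  -- `Y ≠ 0`, since otherwise `P` would be a `2`-torsion point
  have hY : Y ≠ 0 := by
    intro hY0
    apply h2P
    rw [two_nsmul]
    rw [hY0] at hP
    exact M.add_self_eq_zero_of_Y_eq_zero hP
  refine ⟨hY, fun T => ?_⟩
  -- the duplication formula
  obtain ⟨Y₃, h₃⟩ := M.exists_coord_two h2 hP hY
  have hx2 : xs M P 2 = (X ^ 2 - α * β) ^ 2 / (4 * Y ^ 2) := by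
    apply xs_of_coord M (Y := Y₃)
    rw [two_nsmul]
    exact h₃
  have h4 : (4 : K) * Y ^ 2 ≠ 0 := by
    have e4 : (4 : K) = 2 * 2 := by norm_num
    rw [e4]
    exact mul_ne_zero (mul_ne_zero h2 h2) (pow_ne_zero 2 hY)
  have heq : Y ^ 2 = X * (X - α) * (X - β) := M.equation hP
  have hdiv : 4 * Y ^ 2 * ((X ^ 2 - α * β) ^ 2 / (4 * Y ^ 2)) = (X ^ 2 - α * β) ^ 2 :=
    mul_div_cancel₀ _ h4
  rw [biq_same, hx2, mul_sub, hdiv]
  linear_combination (4 * T) * heq

end Fermat.Agent.S13.DP
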