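import Fermat.Agent.S13.DP.Defs

/-!
# S13 / block DP: geometry: n • P = 0 iff X((n-1)P) = X(P)
(one worker per file; the STATEMENTS are frozen by helper2 — prove them, do not change them;
auxiliary lemmas go into the namespace `Fermat.Agent.S13.DP.GeoFinalAux`.)
-/

set_option autoImplicit false

namespace Fermat.Agent.S13.DP

open Fermat.Agent.S05

variable {K : Type*} [Field K]

/-- If `k • P ≠ 0` for `1 ≤ k < n` (`n ≥ 3`), then `n • P = 0 ↔ X((n-1)P) = X(P)`. -/
theorem geo_final {α β : K} {G : Type*} [AddCommGroup G] (M : Model K α β G) {P : G} {n : ℕ}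
    (hn : 3 ≤ n) (h : ∀ k : ℕ, 1 ≤ k → k < n → k • P ≠ 0) :
    n • P = 0 ↔ xs M P (n - 1) = xs M P 1 := by
  obtain ⟨m, rfl⟩ := Nat.exists_eq_add_of_le hn
  have e : 3 + m - 1 = m + 2 := by omega
  rw [e]
  -- the nonzero multiples `(n-1) • P`, `1 • P`, `(n-2) • P`
  have hk : (m + 2) • P ≠ 0 := h (m + 2) (by omega) (by omega)
  have h1 : 1 • P ≠ 0 := h 1 (by omega) (by omega)
  have hkm : (m + 1) • P ≠ 0 := h (m + 1) (by omega) (by omega)
  obtain ⟨Yk, hYk⟩ := exists_coord_nsmul M hk
  obtain ⟨Y1, hY1⟩ := exists_coord_nsmul M h1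
  have hsum : (3 + m) • P = (m + 2) • P + 1 • P := by
    rw [← add_nsmul]
    congr 1
    omega
  have hsum' : (m + 2) • P = (m + 1) • P + 1 • P := by
    rw [← add_nsmul]
  constructor
  · -- `n • P = 0` gives `(n-1) • P = -P`, which has the same abscissa as `P`
    intro h0
    have hneg : (m + 2) • P = -(1 • P) := by
      rw [hsum] at h0
      exact eq_neg_of_add_eq_zero_left h0
    have hc : M.coord ((m + 2) • P) = some (xs M P 1, -Y1) := by
      rw [hneg]
      exact M.coord_neg hY1
    exact xs_of_coord M hc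
  · -- equal abscissas: `(n-1) • P = ± P`; the sign `+` is excluded as `(n-2) • P ≠ 0`
    intro hx
    rw [hx] at hYk
    rcases M.eq_or_eq_neg_of_X_eq hY1 hYk with heq | heq
    · exfalso
      apply hkm
      rw [hsum'] at heq
      exact add_right_cancel (heq.trans (zero_add (1 • P)).symm)
    · rw [hsum, heq]
      exact neg_add_cancel _

end Fermat.Agent.S13.DP
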