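import Fermat.Agent.S13.DP.Defs

/-!
# S13 / block DP: link with Mathlib's division polynomials preΨ'
(proof ported from helper9's `Fermat/Agent/S13/DPLink/Eval.lean`, which is stated for `legendre`.)
-/

set_option autoImplicit false

namespace Fermat.Agent.S13.DP

open Polynomial

variable {K : Type*} [Field K]

namespace LinkAux

theorem eval_Ψ₂Sq (α β X : K) : ((curve α β).Ψ₂Sq).eval X = 4 * X * (X - α) * (X - β) := by
  simp only [WeierstrassCurve.Ψ₂Sq, WeierstrassCurve.b₂, WeierstrassCurve.b₄,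
    WeierstrassCurve.b₆, curve, eval_add, eval_mul, eval_C, eval_pow, eval_X]
  ring

theorem eval_Ψ₃ (α β X : K) : ((curve α β).Ψ₃).eval X = psi3 (-(α + β)) (α * β) X := by
  simp only [WeierstrassCurve.Ψ₃, WeierstrassCurve.b₂, WeierstrassCurve.b₄,
    WeierstrassCurve.b₆, WeierstrassCurve.b₈, curve, eval_add, eval_mul, eval_C, eval_pow,
    eval_X, eval_ofNat, psi3]
  ring

theorem eval_preΨ₄ (α β X : K) : ((curve α β).preΨ₄).eval X = psi4 (-(α + β)) (α * β) X := by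
  simp only [WeierstrassCurve.preΨ₄, WeierstrassCurve.b₂, WeierstrassCurve.b₄,
    WeierstrassCurve.b₆, WeierstrassCurve.b₈, curve, eval_add, eval_mul, eval_C, eval_pow,
    eval_X, eval_ofNat, psi4]
  ring

theorem eval_preΨ'_rec (α β X : K) (n : ℕ) : ((curve α β).preΨ' n).eval X =
    preNormEDS' (((curve α β).Ψ₂Sq).eval X ^ 2) (((curve α β).Ψ₃).eval X)
      (((curve α β).preΨ₄).eval X) n := by
  have h := map_preNormEDS' (evalRingHom X) ((curve α β).Ψ₂Sq ^ 2) ((curve α β).Ψ₃)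
    ((curve α β).preΨ₄) n
  rw [coe_evalRingHom, eval_pow] at h
  rw [WeierstrassCurve.preΨ', h]

end LinkAux

/-- For odd `n`, `preΨ'ₙ(X) = normEDS (2Y) Ψ₃(X) preΨ₄(X) n` on the curve. -/
theorem eval_preΨ' {α β X Y : K} (hY : Y ^ 2 = X * (X - α) * (X - β)) {n : ℕ} (hn : Odd n) :
    ((curve α β).preΨ' n).eval X
      = normEDS (2 * Y) (psi3 (-(α + β)) (α * β) X) (psi4 (-(α + β)) (α * β) X) (n : ℤ) := by
  have h4 : (2 * Y) ^ 4 = ((curve α β).Ψ₂Sq).eval X ^ 2 := by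
    rw [LinkAux.eval_Ψ₂Sq]
    have : (2 * Y) ^ 4 = (4 * Y ^ 2) ^ 2 := by ring
    rw [this, hY]
    ring
  rw [normEDS_ofNat, LinkAux.eval_preΨ'_rec, h4, if_neg (Nat.not_even_iff_odd.mpr hn), mul_one,
    LinkAux.eval_Ψ₃, LinkAux.eval_preΨ₄]

end Fermat.Agent.S13.DP
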