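import Fermat.Agent.S13.DP.Nonzero
import Fermat.Agent.S13.DP.Link
import Fermat.Agent.S13.DPLink.Lad
import Fermat.Agent.S13.DP.GeoDbl
import Fermat.Agent.S13.DP.GeoAdd
import Fermat.Agent.S13.DP.GeoFinal

/-!
# S13 / block DP: assembly of the first-period theorem (owner: helper2).

`main`: if `P` has coordinates `(X, Y)` and `k • P ≠ 0` for `1 ≤ k < n` (`n ≥ 5` odd), then
`preΨ'ₙ(X) = 0 ↔ n • P = 0`.

The identification of the ladder sequence with `normEDS` is taken from helper9's
`Fermat/Agent/S13/DPLink/Lad.lean` (`dp_lad_eq_normEDS'`, statement-identical to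
`DP/EDS.lean : lad_eq_normEDS`, whose own leaves `DAll`, `RuleOdd`, `RuleEven`, `StepTwo`, `StepGen`,
`BaseThree`, `BaseFour` are an independent second proof and are not imported here).
-/

set_option autoImplicit false

namespace Fermat.Agent.S13.DP

open Fermat.Agent.S05 Polynomial

variable {K : Type*} [Field K]

/-- The abscissas of the multiples of `P` satisfy the field-level hypotheses. -/
theorem hyp_of_model (h2 : (2 : K) ≠ 0) {α β : K} {G : Type*} [AddCommGroup G]
    (M : Model K α β G) {P : G} {X Y : K} (hP : M.coord P = some (X, Y)) {n : ℕ} (hn : 3 ≤ n)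
    (h : ∀ k : ℕ, 1 ≤ k → k < n → k • P ≠ 0) :
    Hyp (-(α + β)) (α * β) (xs M P) Y n := by
  have hx1 : xs M P 1 = X := xs_one M hP
  obtain ⟨hY, hdbl⟩ := geo_dbl h2 M hP (h 2 (by omega) (by omega))
  refine ⟨h2, hY, ?_, ?_, ?_, ?_⟩
  · rw [hx1]
    have := M.equation hP
    linear_combination this
  · intro T
    rw [hx1]
    exact hdbl T
  · intro k hk hkn
    exact (geo_add M h k hk hkn).1
  · intro k hk hkn
    exact (geo_add M h k hk hkn).2

/-- The first-period theorem. -/
theorem main (h2 : (2 : K) ≠ 0) {α β : K} {G : Type*} [AddCommGroup G] (M : Model K α β G)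
    {P : G} {X Y : K} (hP : M.coord P = some (X, Y)) {n : ℕ} (hn : Odd n) (hn5 : 5 ≤ n)
    (h : ∀ k : ℕ, 1 ≤ k → k < n → k • P ≠ 0) :
    ((curve α β).preΨ' n).eval X = 0 ↔ n • P = 0 := by
  have H := hyp_of_model h2 M hP (by omega) h
  have hx1 : xs M P 1 = X := xs_one M hP
  rw [eval_preΨ' (M.equation hP) hn, ← hx1, ← Fermat.Agent.S13.DPLink.dp_lad_eq_normEDS' H (by omega) n le_rfl,
    geo_final M (by omega) h]
  have hk := lad_succ_mul_pred H (n - 1) (by omega) (by omega)
  have e1 : n - 1 + 1 = n := by omega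
  have e2 : n - 1 - 1 = n - 2 := by omega
  rw [e1, e2] at hk
  have hne1 := lad_ne_zero H (n - 1) (by omega) (by omega)
  have hne2 := lad_ne_zero H (n - 2) (by omega) (by omega)
  constructor
  · intro h0
    rw [h0, zero_mul] at hk
    rcases mul_eq_zero.mp hk.symm with h' | h'
    · exact (sub_eq_zero.mp h').symm
    · exact absurd ((pow_eq_zero_iff two_ne_zero).mp h') hne1
  · intro hx
    rw [hx, sub_self, zero_mul] at hk
    exact (mul_eq_zero.mp hk).resolve_right hne2

end Fermat.Agent.S13.DP
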