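import Fermat.Agent.S13.DP.BaseThree

/-!
# S13 / block DP: the base value W₄ = preΨ₄(x₁) · 2Y
(one worker per file; the STATEMENTS are frozen by helper2 — prove them, do not change them;
auxiliary lemmas go into the namespace `Fermat.Agent.S13.DP.BaseFourAux`.)
-/

set_option autoImplicit false

namespace Fermat.Agent.S13.DP

variable {K : Type*} [Field K]

namespace BaseFourAux

/-- The pure algebra behind `W₄ = preΨ₄(x₁) · 2Y`: from the curve equation, the tangent rule at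
`T = x₁` and the chord rule for `2P ± P` at `T = 0, 1`. -/
theorem key_identity {a b x1 x2 x3 Y : K}
    (e : Y ^ 2 = x1 ^ 3 + a * x1 ^ 2 + b * x1)
    (hd : biq a b x1 x1 x1 = 4 * Y ^ 2 * (x2 - x1))
    (h0 : biq a b 0 x2 x1 = (0 - x3) * (0 - x1) * (x2 - x1) ^ 2)
    (h1 : biq a b 1 x2 x1 = (1 - x3) * (1 - x1) * (x2 - x1) ^ 2) :
    (x1 - x3) * psi3 a b x1 ^ 2 = psi4 a b x1 * (2 * Y) ^ 2 := by
  have hN : 2 * ((x2 + x1) * (x2 * x1 + b) + 2 * a * x2 * x1) = (x3 + x1) * (x2 - x1) ^ 2 := by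
    rw [biq_expand] at h0 h1
    linear_combination h0 - h1
  have hB : (x1 - x3) * (x1 - x2) ^ 2 =
      -(4 * Y ^ 2) + (x1 - x2) * (6 * x1 ^ 2 + 4 * a * x1 + 2 * b) := by
    linear_combination hN + 4 * e
  have hC : psi3 a b x1 = 4 * Y ^ 2 * (x1 - x2) := by
    rw [biq_diag] at hd
    linear_combination (-1 : K) * hd
  rw [psi4_eq, hC]
  linear_combination (16 * Y ^ 4) * hB +
    (-16 * Y ^ 2 * (4 * (x1 ^ 3 + a * x1 ^ 2 + b * x1) + 4 * Y ^ 2)) * e

end BaseFourAux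

/-- `W₄ = preΨ₄(x₁) · 2Y`. -/
theorem lad_four {a b : K} {x : ℕ → K} {Y : K} {n : ℕ} (h : Hyp a b x Y n) (hn : 4 ≤ n) :
    lad x Y 4 = psi4 a b (x 1) * (2 * Y) := by
  have h4 : lad x Y 4 = (x 1 - x 3) * lad x Y 3 ^ 2 / lad x Y 2 := lad_add_three x Y 1
  have hadd : ∀ T : K, biq a b T (x 2) (x 1) = (T - x 3) * (T - x 1) * (x 2 - x 1) ^ 2 :=
    fun T => h.add 2 (le_refl 2) hn T
  have key := BaseFourAux.key_identity h.eqn (h.dbl (x 1)) (hadd 0) (hadd 1)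
  have h2Y : (2 * Y : K) ≠ 0 := mul_ne_zero h.two_ne h.Y_ne
  rw [h4, lad_three h, lad_two, div_eq_iff h2Y]
  linear_combination key

end Fermat.Agent.S13.DP
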