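import Fermat.Agent.S13.DP.Defs

/-!
# S13 / block DP: the base value W₃ = Ψ₃(x₁)
(one worker per file; the STATEMENTS are frozen by helper2 — prove them, do not change them;
auxiliary lemmas go into the namespace `Fermat.Agent.S13.DP.BaseThreeAux`.)
-/

set_option autoImplicit false

namespace Fermat.Agent.S13.DP

variable {K : Type*} [Field K]

/-- `W₃ = Ψ₃(x₁)`. -/
theorem lad_three {a b : K} {x : ℕ → K} {Y : K} {n : ℕ} (h : Hyp a b x Y n) :
    lad x Y 3 = psi3 a b (x 1) := by
  have h1 := h.dbl (x 1)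
  rw [biq_diag] at h1
  have h3 : lad x Y 3 = (x 1 - x 2) * lad x Y 2 ^ 2 / lad x Y 1 := lad_add_three x Y 0
  rw [h3, lad_two, lad_one, div_one]
  linear_combination h1

end Fermat.Agent.S13.DP
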