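import Fermat.Agent.S13.DP.Defs

/-!
# S13 / block DP: the step D(·,k), D(·,k-1) ⇒ D(j,k+1) (pure field algebra)
(one worker per file; the STATEMENTS are frozen by helper2 — prove them, do not change them;
auxiliary lemmas go into the namespace `Fermat.Agent.S13.DP.StepGenAux`.)
-/

set_option autoImplicit false

namespace Fermat.Agent.S13.DP

variable {K : Type*} [Field K]

namespace StepGenAux

/-- The polynomial identity behind `step_gen`, before cancelling `B * C`. -/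
theorem step_gen_mul {x1 xj xk xkp xkm xjp xjm Wj Wk Wkp Wkm Wjp Wjm A B C E : K}
    (hstar : (xj - xkp) * (xj - xkm) * (xk - x1) ^ 2 = (xk - xjp) * (xk - xjm) * (xj - x1) ^ 2)
    (hAB : A * B = (xk - xjp) * Wjp ^ 2 * Wk ^ 2)
    (hCE : C * E = (xk - xjm) * Wjm ^ 2 * Wk ^ 2)
    (hCB : C * B = (xkm - xj) * Wj ^ 2 * Wkm ^ 2)
    (hk : Wkp * Wkm = (x1 - xk) * Wk ^ 2)
    (hj : Wjp * Wjm = (x1 - xj) * Wj ^ 2) :
    (A * E - (xkp - xj) * Wj ^ 2 * Wkp ^ 2) * (B * C) = 0 := by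
  linear_combination (C * E) * hAB + ((xk - xjp) * Wjp ^ 2 * Wk ^ 2) * hCE
    + ((xk - xjp) * (xk - xjm) * Wk ^ 4 * (Wjp * Wjm + (x1 - xj) * Wj ^ 2)) * hj
    - (Wj ^ 4 * Wk ^ 4) * hstar
    - ((xj - xkp) * (xj - xkm) * Wj ^ 4 * (Wkp * Wkm + (x1 - xk) * Wk ^ 2)) * hk
    + ((xj - xkp) * Wj ^ 2 * Wkp ^ 2) * hCB

end StepGenAux

/-- Pure algebra.  Think of `Wj = W_j`, `Wk = W_k`, `Wkp = W_{k+1}`, `Wkm = W_{k-1}`,
`Wjp = W_{j+1}`, `Wjm = W_{j-1}`, `A = W_{j+k+1}`, `B = W_{j-k+1}`, `C = W_{j+k-1}`,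
`E = W_{j-k-1}`, and `xkp = x_{k+1}`, `xkm = x_{k-1}`, `xjp = x_{j+1}`, `xjm = x_{j-1}`. -/
theorem step_gen {a b x1 xj xk xkp xkm xjp xjm Wj Wk Wkp Wkm Wjp Wjm A B C E : K}
    (haddk : biq a b xj xk x1 = (xj - xkp) * (xj - xkm) * (xk - x1) ^ 2)
    (haddj : biq a b xk xj x1 = (xk - xjp) * (xk - xjm) * (xj - x1) ^ 2)
    (hAB : A * B = (xk - xjp) * Wjp ^ 2 * Wk ^ 2)
    (hCE : C * E = (xk - xjm) * Wjm ^ 2 * Wk ^ 2)
    (hCB : C * B = (xkm - xj) * Wj ^ 2 * Wkm ^ 2)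
    (hk : Wkp * Wkm = (x1 - xk) * Wk ^ 2)
    (hj : Wjp * Wjm = (x1 - xj) * Wj ^ 2)
    (hWj : Wj ≠ 0) (hWk : Wk ≠ 0) (hWkm : Wkm ≠ 0) (hWjp : Wjp ≠ 0) (hWjm : Wjm ≠ 0)
    (hB : B ≠ 0) (hC : C ≠ 0) :
    A * E = (xkp - xj) * Wj ^ 2 * Wkp ^ 2 := by
  have _h1 := hWj
  have _h2 := hWk
  have _h3 := hWkm
  have _h4 := hWjp
  have _h5 := hWjm
  have hstar : (xj - xkp) * (xj - xkm) * (xk - x1) ^ 2
      = (xk - xjp) * (xk - xjm) * (xj - x1) ^ 2 := by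
    rw [← haddk, ← haddj]
    exact biq_swap12 a b xj xk x1
  have hmul := StepGenAux.step_gen_mul hstar hAB hCE hCB hk hj
  rcases mul_eq_zero.mp hmul with h0 | h0
  · exact sub_eq_zero.mp h0
  · exact absurd h0 (mul_ne_zero hB hC)

end Fermat.Agent.S13.DP
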