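import Fermat.Agent.S13.DP.Defs

/-!
# S13 / block DP: the step D(j,1) ⇒ D(j,2) (pure field algebra)
(one worker per file; the STATEMENTS are frozen by helper2 — prove them, do not change them;
auxiliary lemmas go into the namespace `Fermat.Agent.S13.DP.StepTwoAux`.)
-/

set_option autoImplicit false

namespace Fermat.Agent.S13.DP

variable {K : Type*} [Field K]

/-- Pure algebra.  Think of `Wj = W_j`, `Wjp = W_{j+1}`, `Wjm = W_{j-1}`, `Wjpp = W_{j+2}`,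
`Wjmm = W_{j-2}`, `W2 = W_2`, `xjp = x_{j+1}`, `xjm = x_{j-1}`. -/
theorem step_two {a b x1 x2 xj xjp xjm W2 Wj Wjp Wjm Wjpp Wjmm : K}
    (hdbl : biq a b xj x1 x1 = W2 ^ 2 * (x2 - xj))
    (hadd : biq a b x1 xj x1 = (x1 - xjp) * (x1 - xjm) * (xj - x1) ^ 2)
    (hp : Wjpp * Wj = (x1 - xjp) * Wjp ^ 2)
    (hm : Wj * Wjmm = (x1 - xjm) * Wjm ^ 2)
    (h0 : Wjp * Wjm = (x1 - xj) * Wj ^ 2)
    (hWj : Wj ≠ 0) (hWjp : Wjp ≠ 0) (hWjm : Wjm ≠ 0) :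
    Wjpp * Wjmm = (x2 - xj) * Wj ^ 2 * W2 ^ 2 := by
  have _ := hWjp
  have _ := hWjm
  have hE : W2 ^ 2 * (x2 - xj) = (x1 - xjp) * (x1 - xjm) * (xj - x1) ^ 2 := by
    rw [← hdbl, biq_swap12, hadd]
  have hWj2 : Wj ^ 2 ≠ 0 := pow_ne_zero 2 hWj
  apply mul_right_cancel₀ hWj2
  linear_combination (Wj * Wjmm) * hp + ((x1 - xjp) * Wjp ^ 2) * hm +
    ((x1 - xjp) * (x1 - xjm) * (Wjp * Wjm + (x1 - xj) * Wj ^ 2)) * h0 - Wj ^ 4 * hE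

end Fermat.Agent.S13.DP
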