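import Fermat.Agent.S13.DP.Nonzero
import Fermat.Agent.S13.DP.StepTwo
import Fermat.Agent.S13.DP.StepGen

/-!
# S13 / block DP: the relations D(j,k) (induction on k)
(one worker per file; the STATEMENTS are frozen by helper2 — prove them, do not change them;
auxiliary lemmas go into the namespace `Fermat.Agent.S13.DP.DAllAux`.)
-/

set_option autoImplicit false

namespace Fermat.Agent.S13.DP

variable {K : Type*} [Field K]

namespace DAllAux

/-- `D(j,2)` from `D(·,1)` (via `step_two`). -/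
theorem lad_D_two {a b : K} {x : ℕ → K} {Y : K} {n : ℕ} (h : Hyp a b x Y n) (j : ℕ)
    (hj : 2 < j) (hjn : j + 2 ≤ n) :
    lad x Y (j + 2) * lad x Y (j - 2) = (x 2 - x j) * lad x Y j ^ 2 * lad x Y 2 ^ 2 := by
  have hdbl : biq a b (x j) (x 1) (x 1) = lad x Y 2 ^ 2 * (x 2 - x j) := by
    rw [h.dbl (x j), lad_two]
    ring
  have hadd := h.add j (by omega) hjn (x 1)
  have hp := lad_succ_mul_pred h (j + 1) (by omega) (by omega)
  have hm := lad_succ_mul_pred h (j - 1) (by omega) (by omega)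
  have h0 := lad_succ_mul_pred h j (by omega) (by omega)
  have e1 : j + 1 + 1 = j + 2 := by omega
  have e2 : j + 1 - 1 = j := by omega
  have e3 : j - 1 + 1 = j := by omega
  have e4 : j - 1 - 1 = j - 2 := by omega
  rw [e1, e2] at hp
  rw [e3, e4] at hm
  exact step_two hdbl hadd hp hm h0 (lad_ne_zero h j (by omega) (by omega))
    (lad_ne_zero h (j + 1) (by omega) (by omega)) (lad_ne_zero h (j - 1) (by omega) (by omega))

/-- `D(j,k+1)` from `D(·,k)` and `D(·,k-1)` for `k ≥ 2` (via `step_gen`). -/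
theorem lad_D_step {a b : K} {x : ℕ → K} {Y : K} {n : ℕ} (h : Hyp a b x Y n) (k j : ℕ)
    (hk : 2 ≤ k) (hkj : k + 1 < j) (hjn : j + (k + 1) ≤ n)
    (ih1 : ∀ j' : ℕ, k < j' → j' + k ≤ n →
      lad x Y (j' + k) * lad x Y (j' - k) = (x k - x j') * lad x Y j' ^ 2 * lad x Y k ^ 2)
    (ih2 : ∀ j' : ℕ, k - 1 < j' → j' + (k - 1) ≤ n →
      lad x Y (j' + (k - 1)) * lad x Y (j' - (k - 1)) =
        (x (k - 1) - x j') * lad x Y j' ^ 2 * lad x Y (k - 1) ^ 2) :
    lad x Y (j + (k + 1)) * lad x Y (j - (k + 1)) =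
      (x (k + 1) - x j) * lad x Y j ^ 2 * lad x Y (k + 1) ^ 2 := by
  have haddk := h.add k hk (by omega) (x j)
  have haddj := h.add j (by omega) (by omega) (x k)
  have hAB := ih1 (j + 1) (by omega) (by omega)
  have hCE := ih1 (j - 1) (by omega) (by omega)
  have hCB := ih2 j (by omega) (by omega)
  have hk' := lad_succ_mul_pred h k (by omega) (by omega)
  have hj' := lad_succ_mul_pred h j (by omega) (by omega)
  have e1 : j + (k - 1) = j - 1 + k := by omega
  have e2 : j - (k - 1) = j + 1 - k := by omega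
  have e3 : j + (k + 1) = j + 1 + k := by omega
  have e4 : j - (k + 1) = j - 1 - k := by omega
  rw [e1, e2] at hCB
  rw [e3, e4]
  exact step_gen haddk haddj hAB hCE hCB hk' hj' (lad_ne_zero h j (by omega) (by omega))
    (lad_ne_zero h k (by omega) (by omega)) (lad_ne_zero h (k - 1) (by omega) (by omega))
    (lad_ne_zero h (j + 1) (by omega) (by omega)) (lad_ne_zero h (j - 1) (by omega) (by omega))
    (lad_ne_zero h (j + 1 - k) (by omega) (by omega))
    (lad_ne_zero h (j - 1 + k) (by omega) (by omega))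

end DAllAux

/-- `D(j,k)`: `W_{j+k} W_{j-k} = (x_k - x_j) W_j² W_k²` for `1 ≤ k < j`, `j + k ≤ n`. -/
theorem lad_D {a b : K} {x : ℕ → K} {Y : K} {n : ℕ} (h : Hyp a b x Y n) :
    ∀ k j : ℕ, 1 ≤ k → k < j → j + k ≤ n →
      lad x Y (j + k) * lad x Y (j - k) = (x k - x j) * lad x Y j ^ 2 * lad x Y k ^ 2 := by
  intro k
  induction k using Nat.strong_induction_on with
  | _ k ih =>
    intro j hk hkj hjn
    rcases Nat.lt_or_ge k 2 with hk2 | hk2
    · -- `k = 1`
      have hk1 : k = 1 := by omega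
      subst hk1
      have h1 := lad_succ_mul_pred h j (by omega) (by omega)
      rw [h1, lad_one, one_pow, mul_one]
    · rcases Nat.eq_or_lt_of_le hk2 with hk2' | hk3
      · -- `k = 2`
        subst hk2'
        exact DAllAux.lad_D_two h j hkj hjn
      · -- `k = k' + 1` with `k' ≥ 2`
        obtain ⟨k', rfl⟩ : ∃ k', k = k' + 1 := ⟨k - 1, by omega⟩
        exact DAllAux.lad_D_step h k' j (by omega) hkj hjn
          (fun j' h1 h2 => ih k' (by omega) j' (by omega) h1 h2)
          (fun j' h1 h2 => ih (k' - 1) (by omega) j' (by omega) h1 h2)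

end Fermat.Agent.S13.DP
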