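import Mathlib
import Fermat.Agent.S05.Core.Formulas

/-!
# S13 / block DP: definitions (owner: helper2; FROZEN).

Curve `Y² = X³ + a X² + b X` (`a = -(α+β)`, `b = αβ`).

* `biq a b u v w`: the symmetric biquadratic form.  For points `R, S ≠ 0` with `X_R ≠ X_S`:
  `biq T X_R X_S = (T - X(R+S)) (T - X(R-S)) (X_R - X_S)²`, and `biq T x x = 4Y² (X(2R) - T)`.
* `psi3 a b x`, `psi4 a b x`: the values of `Ψ₃` and `preΨ₄` at `x`.
* `lad x Y`: the ladder sequence `W₀ = 0, W₁ = 1, W₂ = 2Y, W_{k+1} = (x₁ - x_k) W_k² / W_{k-1}`.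
* `Hyp a b x Y n`: the field-level hypotheses on `x_k = X(kP)` (`1 ≤ k ≤ n - 1`).
* `curve α β`: the Weierstrass curve `Y² = X (X - α) (X - β)` (the same term as `legendre α β`).
* `xs M P k`: the `X`-coordinate of `k • P` in a model `M` (`0` at infinity).
-/

set_option autoImplicit false

namespace Fermat.Agent.S13.DP

open Fermat.Agent.S05

variable {K : Type*} [Field K]

/-- The symmetric biquadratic form of the curve `Y² = X³ + a X² + b X`. -/
def biq (a b u v w : K) : K :=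
  u ^ 2 * (v - w) ^ 2 - 2 * u * ((v + w) * (v * w + b) + 2 * a * v * w) + (v * w - b) ^ 2

theorem biq_swap12 (a b u v w : K) : biq a b u v w = biq a b v u w := by
  unfold biq; ring

theorem biq_swap23 (a b u v w : K) : biq a b u v w = biq a b u w v := by
  unfold biq; ring

theorem biq_swap13 (a b u v w : K) : biq a b u v w = biq a b w v u := by
  unfold biq; ring

/-- The value of `Ψ₃` at `x`. -/
def psi3 (a b x : K) : K := 3 * x ^ 4 + 4 * a * x ^ 3 + 6 * b * x ^ 2 - b ^ 2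

/-- The value of `preΨ₄` at `x`. -/
def psi4 (a b x : K) : K :=
  2 * x ^ 6 + 4 * a * x ^ 5 + 10 * b * x ^ 4 - 10 * b ^ 2 * x ^ 2 - 4 * a * b ^ 2 * x - 2 * b ^ 3

theorem biq_diag (a b x : K) : biq a b x x x = -psi3 a b x := by
  unfold biq psi3; ring

theorem biq_same (a b T x : K) :
    biq a b T x x = (x ^ 2 - b) ^ 2 - 4 * T * (x ^ 3 + a * x ^ 2 + b * x) := by
  unfold biq; ring

theorem biq_expand (a b T v w : K) :
    biq a b T v w = (v - w) ^ 2 * T ^ 2 - 2 * ((v + w) * (v * w + b) + 2 * a * v * w) * T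
      + (v * w - b) ^ 2 := by
  unfold biq; ring

theorem psi4_eq (a b x : K) :
    psi4 a b x = psi3 a b x * (6 * x ^ 2 + 4 * a * x + 2 * b)
      - (4 * (x ^ 3 + a * x ^ 2 + b * x)) ^ 2 := by
  unfold psi3 psi4; ring

/-- The ladder sequence: `W₀ = 0`, `W₁ = 1`, `W₂ = 2Y`,
`W_{k+3} = (x₁ - x_{k+2}) W_{k+2}² / W_{k+1}`. -/
noncomputable def lad (x : ℕ → K) (Y : K) : ℕ → K
  | 0 => 0
  | 1 => 1
  | 2 => 2 * Y
  | (k + 3) => (x 1 - x (k + 2)) * lad x Y (k + 2) ^ 2 / lad x Y (k + 1)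

@[simp] theorem lad_zero (x : ℕ → K) (Y : K) : lad x Y 0 = 0 := by
  rw [lad]

@[simp] theorem lad_one (x : ℕ → K) (Y : K) : lad x Y 1 = 1 := by
  rw [lad]

@[simp] theorem lad_two (x : ℕ → K) (Y : K) : lad x Y 2 = 2 * Y := by
  rw [lad]

theorem lad_add_three (x : ℕ → K) (Y : K) (k : ℕ) :
    lad x Y (k + 3) = (x 1 - x (k + 2)) * lad x Y (k + 2) ^ 2 / lad x Y (k + 1) := by
  rw [lad]

/-- Field-level hypotheses: `x k` is the `X`-coordinate of `k • P` for `1 ≤ k ≤ n - 1`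
(all these multiples being nonzero), `Y` the `Y`-coordinate of `P`. -/
structure Hyp (a b : K) (x : ℕ → K) (Y : K) (n : ℕ) : Prop where
  two_ne : (2 : K) ≠ 0
  Y_ne : Y ≠ 0
  eqn : Y ^ 2 = x 1 ^ 3 + a * x 1 ^ 2 + b * x 1
  dbl : ∀ T : K, biq a b T (x 1) (x 1) = 4 * Y ^ 2 * (x 2 - T)
  ne : ∀ k : ℕ, 2 ≤ k → k + 2 ≤ n → x k ≠ x 1
  add : ∀ k : ℕ, 2 ≤ k → k + 2 ≤ n → ∀ T : K,
    biq a b T (x k) (x 1) = (T - x (k + 1)) * (T - x (k - 1)) * (x k - x 1) ^ 2

/-- The Weierstrass curve `Y² = X (X - α) (X - β)`. -/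
def curve (α β : K) : WeierstrassCurve K :=
  { a₁ := 0, a₂ := -(α + β), a₃ := 0, a₄ := α * β, a₆ := 0 }

/-- The `X`-coordinate of `k • P` (`0` if `k • P = 0`). -/
noncomputable def xs {α β : K} {G : Type*} [AddCommGroup G] (M : Model K α β G) (P : G)
    (k : ℕ) : K :=
  match M.coord (k • P) with
  | none => 0
  | some (X, _) => X

theorem xs_of_coord {α β : K} {G : Type*} [AddCommGroup G] (M : Model K α β G) {P : G}
    {k : ℕ} {X Y : K} (h : M.coord (k • P) = some (X, Y)) : xs M P k = X := by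
  unfold xs
  rw [h]

theorem xs_one {α β : K} {G : Type*} [AddCommGroup G] (M : Model K α β G) {P : G}
    {X Y : K} (h : M.coord P = some (X, Y)) : xs M P 1 = X := by
  apply xs_of_coord M (Y := Y)
  rw [one_nsmul]
  exact h

/-- Coordinates of a nonzero multiple. -/
theorem exists_coord_nsmul {α β : K} {G : Type*} [AddCommGroup G] (M : Model K α β G) {P : G}
    {k : ℕ} (h : k • P ≠ 0) : ∃ Y : K, M.coord (k • P) = some (xs M P k, Y) := by
  obtain ⟨X, Y, hXY⟩ := M.exists_coord_of_ne_zero h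
  exact ⟨Y, by rw [xs_of_coord M hXY]; exact hXY⟩

end Fermat.Agent.S13.DP
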