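import Fermat.Agent.S13.DP.DAll

/-!
# S13 / block DP: the even rule for the ladder sequence
(one worker per file; the STATEMENTS are frozen by helper2 — prove them, do not change them;
auxiliary lemmas go into the namespace `Fermat.Agent.S13.DP.RuleEvenAux`.)
-/

set_option autoImplicit false

namespace Fermat.Agent.S13.DP

variable {K : Type*} [Field K]

namespace RuleEvenAux

/-- The even rule with the index written as `m' + 3` (no truncated subtraction). -/
theorem lad_even_rule_add_three {a b : K} {x : ℕ → K} {Y : K} {n : ℕ} (h : Hyp a b x Y n)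
    (m' : ℕ) (hn : 2 * (m' + 3) ≤ n) :
    lad x Y (2 * (m' + 3)) * (2 * Y)
      = lad x Y (m' + 2) ^ 2 * lad x Y (m' + 3) * lad x Y (m' + 5)
        - lad x Y (m' + 1) * lad x Y (m' + 3) * lad x Y (m' + 4) ^ 2 := by
  -- `D(m+1, m-1)`
  have hD : lad x Y (2 * (m' + 3)) * (2 * Y)
      = (x (m' + 2) - x (m' + 4)) * lad x Y (m' + 4) ^ 2 * lad x Y (m' + 2) ^ 2 := by
    have h0 := lad_D h (m' + 2) (m' + 4) (by omega) (by omega) (by omega)
    rw [show m' + 4 + (m' + 2) = 2 * (m' + 3) by omega,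
      show m' + 4 - (m' + 2) = 2 by omega, lad_two] at h0
    exact h0
  -- `D(m+1, 1)`
  have h1 : lad x Y (m' + 5) * lad x Y (m' + 3)
      = (x 1 - x (m' + 4)) * lad x Y (m' + 4) ^ 2 := by
    have h0 := lad_succ_mul_pred h (m' + 4) (by omega) (by omega)
    rw [show m' + 4 + 1 = m' + 5 by omega, show m' + 4 - 1 = m' + 3 by omega] at h0
    exact h0
  -- `D(m-1, 1)`
  have h2 : lad x Y (m' + 3) * lad x Y (m' + 1)
      = (x 1 - x (m' + 2)) * lad x Y (m' + 2) ^ 2 := by
    have h0 := lad_succ_mul_pred h (m' + 2) (by omega) (by omega)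
    rw [show m' + 2 + 1 = m' + 3 by omega, show m' + 2 - 1 = m' + 1 by omega] at h0
    exact h0
  linear_combination hD - lad x Y (m' + 2) ^ 2 * h1 + lad x Y (m' + 4) ^ 2 * h2

end RuleEvenAux

/-- `W_{2m} W_2 = W_{m-1}² W_m W_{m+2} - W_{m-2} W_m W_{m+1}²` for `m ≥ 3`, `2m ≤ n`. -/
theorem lad_even_rule {a b : K} {x : ℕ → K} {Y : K} {n : ℕ} (h : Hyp a b x Y n) :
    ∀ m : ℕ, 3 ≤ m → 2 * m ≤ n →
      lad x Y (2 * m) * (2 * Y)
        = lad x Y (m - 1) ^ 2 * lad x Y m * lad x Y (m + 2)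
          - lad x Y (m - 2) * lad x Y m * lad x Y (m + 1) ^ 2 := by
  intro m hm hn
  obtain ⟨m', rfl⟩ : ∃ m', m = m' + 3 := ⟨m - 3, by omega⟩
  have key := RuleEvenAux.lad_even_rule_add_three h m' hn
  rw [show m' + 3 - 1 = m' + 2 by omega, show m' + 3 - 2 = m' + 1 by omega,
    show m' + 3 + 2 = m' + 5 by omega, show m' + 3 + 1 = m' + 4 by omega]
  exact key

end Fermat.Agent.S13.DP
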