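import Fermat.Agent.S13.DP.RuleOdd
import Fermat.Agent.S13.DP.RuleEven
import Fermat.Agent.S13.DP.BaseFour
import Fermat.Agent.S13.DPLink.Unique

/-!
# S13 / block DP: the ladder sequence is Mathlib's normEDS on [0, n]
(via helper9's uniqueness lemma `Fermat.Agent.S13.DPLink.eq_normEDS_of_rules`.)
-/

set_option autoImplicit false

namespace Fermat.Agent.S13.DP

variable {K : Type*} [Field K]

/-- `W_k = normEDS (2Y) Ψ₃(x₁) preΨ₄(x₁) k` for `0 ≤ k ≤ n`. -/
theorem lad_eq_normEDS {a b : K} {x : ℕ → K} {Y : K} {n : ℕ} (h : Hyp a b x Y n) (hn : 4 ≤ n) :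
    ∀ k : ℕ, k ≤ n →
      lad x Y k = normEDS (2 * Y) (psi3 a b (x 1)) (psi4 a b (x 1)) (k : ℤ) := by
  refine Fermat.Agent.S13.DPLink.eq_normEDS_of_rules (2 * Y) (psi3 a b (x 1)) (psi4 a b (x 1))
    (mul_ne_zero h.two_ne h.Y_ne) n (lad x Y) (lad_zero x Y) (lad_one x Y) (lad_two x Y)
    (lad_three h) (lad_four h hn) (lad_odd_rule h) ?_
  intro m hm hmn
  rw [lad_even_rule h m hm hmn]
  ring

end Fermat.Agent.S13.DP
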