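import Fermat.Agent.S13.DP.Defs

/-!
# S13 / block DP: nonvanishing of the ladder sequence and the relation D(k,1)
(one worker per file; the STATEMENTS are frozen by helper2 — prove them, do not change them;
auxiliary lemmas go into the namespace `Fermat.Agent.S13.DP.NonzeroAux`.)
-/

set_option autoImplicit false

namespace Fermat.Agent.S13.DP

variable {K : Type*} [Field K]

/-- `W_k ≠ 0` for `1 ≤ k ≤ n - 1`. -/
theorem lad_ne_zero {a b : K} {x : ℕ → K} {Y : K} {n : ℕ} (h : Hyp a b x Y n) :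
    ∀ k : ℕ, 1 ≤ k → k + 1 ≤ n → lad x Y k ≠ 0 := by
  intro k
  induction k using Nat.strong_induction_on with
  | _ k ih =>
    intro hk1 hkn
    match k, ih, hk1, hkn with
    | 0, _, hk1, _ => omega
    | 1, _, _, _ =>
      rw [lad_one]
      exact one_ne_zero
    | 2, _, _, _ =>
      rw [lad_two]
      exact mul_ne_zero h.two_ne h.Y_ne
    | k + 3, ih, _, hkn =>
      rw [lad_add_three]
      have h1 : x 1 - x (k + 2) ≠ 0 :=
        sub_ne_zero.mpr (h.ne (k + 2) (by omega) (by omega)).symm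
      have h2 : lad x Y (k + 2) ≠ 0 := ih (k + 2) (by omega) (by omega) (by omega)
      have h3 : lad x Y (k + 1) ≠ 0 := ih (k + 1) (by omega) (by omega) (by omega)
      exact div_ne_zero (mul_ne_zero h1 (pow_ne_zero 2 h2)) h3

/-- `D(k,1)`: `W_{k+1} W_{k-1} = (x₁ - x_k) W_k²` for `1 ≤ k ≤ n - 1`. -/
theorem lad_succ_mul_pred {a b : K} {x : ℕ → K} {Y : K} {n : ℕ} (h : Hyp a b x Y n) :
    ∀ k : ℕ, 1 ≤ k → k + 1 ≤ n →
      lad x Y (k + 1) * lad x Y (k - 1) = (x 1 - x k) * lad x Y k ^ 2 := by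
  intro k hk1 hkn
  match k, hk1, hkn with
  | 0, hk1, _ => omega
  | 1, _, _ =>
    have e : (1 : ℕ) - 1 = 0 := rfl
    rw [e, lad_zero, mul_zero, sub_self, zero_mul]
  | k + 2, _, hkn =>
    have e1 : k + 2 + 1 = k + 3 := rfl
    have e2 : k + 2 - 1 = k + 1 := rfl
    rw [e1, e2, lad_add_three,
      div_mul_cancel₀ _ (lad_ne_zero h (k + 1) (by omega) (by omega))]

end Fermat.Agent.S13.DP
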