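import Fermat.Agent.S13.DP.DAll

/-!
# S13 / block DP: the odd rule for the ladder sequence
(one worker per file; the STATEMENTS are frozen by helper2 — prove them, do not change them;
auxiliary lemmas go into the namespace `Fermat.Agent.S13.DP.RuleOddAux`.)
-/

set_option autoImplicit false

namespace Fermat.Agent.S13.DP

variable {K : Type*} [Field K]

/-- `W_{2m+1} = W_{m+2} W_m³ - W_{m-1} W_{m+1}³` for `m ≥ 2`, `2m + 1 ≤ n`. -/
theorem lad_odd_rule {a b : K} {x : ℕ → K} {Y : K} {n : ℕ} (h : Hyp a b x Y n) :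
    ∀ m : ℕ, 2 ≤ m → 2 * m + 1 ≤ n →
      lad x Y (2 * m + 1)
        = lad x Y (m + 2) * lad x Y m ^ 3 - lad x Y (m - 1) * lad x Y (m + 1) ^ 3 := by
  intro m hm hn
  -- `D(m+1, m)`: `W_{2m+1} W_1 = (x_m - x_{m+1}) W_{m+1}² W_m²`
  have hD := lad_D h m (m + 1) (by omega) (by omega) (by omega)
  -- `D(m+1, 1)`: `W_{m+2} W_m = (x_1 - x_{m+1}) W_{m+1}²`
  have hP := lad_succ_mul_pred h (m + 1) (by omega) (by omega)
  -- `D(m, 1)`: `W_{m+1} W_{m-1} = (x_1 - x_m) W_m²`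
  have hQ := lad_succ_mul_pred h m (by omega) (by omega)
  have e1 : m + 1 + m = 2 * m + 1 := by omega
  have e2 : m + 1 - m = 1 := by omega
  have e3 : m + 1 + 1 = m + 2 := rfl
  have e4 : m + 1 - 1 = m := by omega
  rw [e1, e2, lad_one, mul_one] at hD
  rw [e3, e4] at hP
  linear_combination hD - (lad x Y m) ^ 2 * hP + (lad x Y (m + 1)) ^ 2 * hQ

end Fermat.Agent.S13.DP
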